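/-
S52 / piece (B1d) infrastructure, part P1 (helper170).

The place `t = a` of the rational function field `K(t)`:
* `RegAt a f`            : `f : RatFunc K` is regular at `a` (reduced denominator does not vanish);
* `placeAt a`            : the valuation subring of `RatFunc K` of functions regular at `a`;
* `evalAt a`             : the evaluation ring hom `placeAt a →+* K`, a local surjective hom;
* `regAt_map`, `eval_map`: compatibility with a field hom `σ : K →+* K'` acting on coefficients.

Mathlib-only.
-/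
import Mathlib

namespace Fermat.Agent.S52.H170

open Polynomial

variable {K : Type*} [Field K]

/-- `f` is regular at `a`: the reduced denominator of `f` does not vanish at `a`. -/
def RegAt (a : K) (f : RatFunc K) : Prop := (RatFunc.denom f).eval a ≠ 0

/-- value of a rational function at `a` (junk value `0` if not regular). -/
noncomputable def valAt (a : K) (f : RatFunc K) : K := RatFunc.eval (RingHom.id K) a f

lemma valAt_def (a : K) (f : RatFunc K) :
    valAt a f = (RatFunc.num f).eval a / (RatFunc.denom f).eval a := by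
  simp [valAt, RatFunc.eval, Polynomial.eval₂_id]

lemma regAt_iff_eval₂ (a : K) (f : RatFunc K) :
    RegAt a f ↔ Polynomial.eval₂ (RingHom.id K) a (RatFunc.denom f) ≠ 0 := by
  simp [RegAt, Polynomial.eval₂_id]

lemma regAt_div {a : K} (p q : K[X]) (hq : q.eval a ≠ 0) :
    RegAt a (algebraMap K[X] (RatFunc K) p / algebraMap K[X] (RatFunc K) q) := by
  intro h
  exact hq (Polynomial.eval_eq_zero_of_dvd_of_eval_eq_zero (RatFunc.denom_div_dvd p q) h)

lemma regAt_iff (a : K) (f : RatFunc K) :
    RegAt a f ↔ ∃ p q : K[X], q.eval a ≠ 0 ∧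
      f = algebraMap K[X] (RatFunc K) p / algebraMap K[X] (RatFunc K) q := by
  constructor
  · intro h
    exact ⟨RatFunc.num f, RatFunc.denom f, h, (RatFunc.num_div_denom f).symm⟩
  · rintro ⟨p, q, hq, rfl⟩
    exact regAt_div p q hq

lemma regAt_algebraMap (a : K) (p : K[X]) : RegAt a (algebraMap K[X] (RatFunc K) p) := by
  simp [RegAt, RatFunc.denom_algebraMap]

lemma regAt_C (a : K) (c : K) : RegAt a (RatFunc.C c) := by
  have : (RatFunc.C c : RatFunc K) = algebraMap K[X] (RatFunc K) (Polynomial.C c) := by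
    simp [RatFunc.algebraMap_C]
  rw [this]; exact regAt_algebraMap a _

lemma regAt_zero (a : K) : RegAt a (0 : RatFunc K) := by simp [RegAt]

lemma regAt_one (a : K) : RegAt a (1 : RatFunc K) := by simp [RegAt]

lemma regAt_add {a : K} {f g : RatFunc K} (hf : RegAt a f) (hg : RegAt a g) :
    RegAt a (f + g) := by
  intro h
  have := Polynomial.eval_eq_zero_of_dvd_of_eval_eq_zero (RatFunc.denom_add_dvd f g) h
  rw [Polynomial.eval_mul] at this
  rcases mul_eq_zero.mp this with h1 | h1
  · exact hf h1
  · exact hg h1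

lemma regAt_mul {a : K} {f g : RatFunc K} (hf : RegAt a f) (hg : RegAt a g) :
    RegAt a (f * g) := by
  intro h
  have := Polynomial.eval_eq_zero_of_dvd_of_eval_eq_zero (RatFunc.denom_mul_dvd f g) h
  rw [Polynomial.eval_mul] at this
  rcases mul_eq_zero.mp this with h1 | h1
  · exact hf h1
  · exact hg h1

lemma regAt_neg {a : K} {f : RatFunc K} (hf : RegAt a f) : RegAt a (-f) := by
  have : -f = (-1 : RatFunc K) * f := by ring
  rw [this]
  refine regAt_mul ?_ hf
  have h1 : (-1 : RatFunc K) = algebraMap K[X] (RatFunc K) (-1) := by simp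
  rw [h1]; exact regAt_algebraMap a _

lemma regAt_sub {a : K} {f g : RatFunc K} (hf : RegAt a f) (hg : RegAt a g) :
    RegAt a (f - g) := by
  rw [sub_eq_add_neg]; exact regAt_add hf (regAt_neg hg)

lemma valAt_add {a : K} {f g : RatFunc K} (hf : RegAt a f) (hg : RegAt a g) :
    valAt a (f + g) = valAt a f + valAt a g :=
  RatFunc.eval_add _ _ ((regAt_iff_eval₂ a f).1 hf) ((regAt_iff_eval₂ a g).1 hg)

lemma valAt_mul {a : K} {f g : RatFunc K} (hf : RegAt a f) (hg : RegAt a g) :
    valAt a (f * g) = valAt a f * valAt a g :=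
  RatFunc.eval_mul _ _ ((regAt_iff_eval₂ a f).1 hf) ((regAt_iff_eval₂ a g).1 hg)

@[simp] lemma valAt_zero (a : K) : valAt a (0 : RatFunc K) = 0 := by simp [valAt]

@[simp] lemma valAt_one (a : K) : valAt a (1 : RatFunc K) = 1 := by simp [valAt]

@[simp] lemma valAt_algebraMap (a : K) (p : K[X]) :
    valAt a (algebraMap K[X] (RatFunc K) p) = p.eval a := by
  simp [valAt_def, RatFunc.num_algebraMap, RatFunc.denom_algebraMap]

@[simp] lemma valAt_C (a : K) (c : K) : valAt a (RatFunc.C c) = c := by simp [valAt]

@[simp] lemma valAt_X (a : K) : valAt a (RatFunc.X : RatFunc K) = a := by simp [valAt]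

/-- if `f` is not regular at `a` then `f⁻¹` is, with value `0`. -/
lemma regAt_inv_of_not_regAt {a : K} {f : RatFunc K} (hf : ¬ RegAt a f) :
    RegAt a f⁻¹ ∧ valAt a f⁻¹ = 0 := by
  have hd : (RatFunc.denom f).eval a = 0 := by
    by_contra h; exact hf h
  have hf0 : f ≠ 0 := by
    rintro rfl; exact hf (regAt_zero a)
  -- num f does not vanish at a by coprimality
  have hn : (RatFunc.num f).eval a ≠ 0 := by
    intro hn
    obtain ⟨u, v, huv⟩ := RatFunc.isCoprime_num_denom f
    have := congrArg (Polynomial.eval a) huv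
    simp [Polynomial.eval_add, Polynomial.eval_mul, hn, hd] at this
  have hinv : f⁻¹ = algebraMap K[X] (RatFunc K) (RatFunc.denom f) /
      algebraMap K[X] (RatFunc K) (RatFunc.num f) := by
    conv_lhs => rw [← RatFunc.num_div_denom f]
    rw [inv_div]
  have hreg : RegAt a f⁻¹ := by rw [hinv]; exact regAt_div _ _ hn
  refine ⟨hreg, ?_⟩
  -- valAt (f⁻¹) * valAt (num) = valAt (denom) = 0
  have h1 : f⁻¹ * algebraMap K[X] (RatFunc K) (RatFunc.num f) =
      algebraMap K[X] (RatFunc K) (RatFunc.denom f) := by
    rw [hinv, div_mul_cancel₀]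
    exact RatFunc.algebraMap_ne_zero (RatFunc.num_ne_zero hf0)
  have h2 := valAt_mul hreg (regAt_algebraMap a (RatFunc.num f))
  rw [h1, valAt_algebraMap, valAt_algebraMap, hd] at h2
  rcases mul_eq_zero.mp h2.symm with h3 | h3
  · exact h3
  · exact absurd h3 hn

/-- if `f` is regular at `a` with nonzero value then `f⁻¹` is regular at `a`. -/
lemma regAt_inv_of_valAt_ne_zero {a : K} {f : RatFunc K} (hf : RegAt a f)
    (hv : valAt a f ≠ 0) : RegAt a f⁻¹ := by
  have hf0 : f ≠ 0 := by rintro rfl; simp at hv
  have hn : (RatFunc.num f).eval a ≠ 0 := by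
    intro hn; apply hv; rw [valAt_def, hn, zero_div]
  have hinv : f⁻¹ = algebraMap K[X] (RatFunc K) (RatFunc.denom f) /
      algebraMap K[X] (RatFunc K) (RatFunc.num f) := by
    conv_lhs => rw [← RatFunc.num_div_denom f]
    rw [inv_div]
  rw [hinv]; exact regAt_div _ _ hn

lemma valAt_div {a : K} (p q : K[X]) (hq : q.eval a ≠ 0) :
    valAt a (algebraMap K[X] (RatFunc K) p / algebraMap K[X] (RatFunc K) q) =
      p.eval a / q.eval a := by
  have hq0 : q ≠ 0 := by rintro rfl; simp at hq
  have hreg := regAt_div (a := a) p q hq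
  have h1 : (algebraMap K[X] (RatFunc K) p / algebraMap K[X] (RatFunc K) q) *
      algebraMap K[X] (RatFunc K) q = algebraMap K[X] (RatFunc K) p := by
    rw [div_mul_cancel₀]; exact RatFunc.algebraMap_ne_zero hq0
  have h2 := valAt_mul hreg (regAt_algebraMap a q)
  rw [h1, valAt_algebraMap, valAt_algebraMap] at h2
  rw [eq_div_iff hq]; exact h2.symm

/-- The valuation subring of `K(t)` of functions regular at `t = a`. -/
noncomputable def placeAt (a : K) : ValuationSubring (RatFunc K) where
  carrier := {f | RegAt a f}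
  mul_mem' := fun hf hg => regAt_mul hf hg
  one_mem' := regAt_one a
  add_mem' := fun hf hg => regAt_add hf hg
  zero_mem' := regAt_zero a
  neg_mem' := fun hf => regAt_neg hf
  mem_or_inv_mem' := fun f => by
    by_cases hf : RegAt a f
    · exact Or.inl hf
    · exact Or.inr (regAt_inv_of_not_regAt hf).1

@[simp] lemma mem_placeAt {a : K} {f : RatFunc K} : f ∈ placeAt a ↔ RegAt a f := Iff.rfl

/-- Evaluation at `a`, as a ring hom on the valuation subring of functions regular at `a`. -/
noncomputable def evalAt (a : K) : placeAt a →+* K where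
  toFun f := valAt a f.1
  map_one' := by simp
  map_mul' f g := valAt_mul f.2 g.2
  map_zero' := by simp
  map_add' f g := valAt_add f.2 g.2

@[simp] lemma evalAt_apply {a : K} (f : placeAt a) : evalAt a f = valAt a f.1 := rfl

lemma evalAt_surjective (a : K) : Function.Surjective (evalAt a) := fun c =>
  ⟨⟨RatFunc.C c, regAt_C a c⟩, by simp⟩

instance evalAt_isLocalHom (a : K) : IsLocalHom (evalAt a) where
  map_nonunit f hf := by
    have hv : valAt a f.1 ≠ 0 := by
      have := hf.ne_zero
      simpa using this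
    have hreg := regAt_inv_of_valAt_ne_zero f.2 hv
    have hf0 : f.1 ≠ 0 := by
      intro h; rw [h] at hv; simp at hv
    refine isUnit_iff_exists_inv.mpr ⟨⟨f.1⁻¹, hreg⟩, ?_⟩
    apply Subtype.ext
    simp [hf0]

/-- the value at `a` vanishes iff the element lies in the maximal ideal. -/
lemma evalAt_eq_zero_iff {a : K} (f : placeAt a) :
    evalAt a f = 0 ↔ f ∈ IsLocalRing.maximalIdeal (placeAt a) := by
  rw [IsLocalRing.mem_maximalIdeal, mem_nonunits_iff]
  constructor
  · intro h hu
    have := (hu.map (evalAt a)).ne_zero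
    exact this h
  · intro h
    by_contra h0
    exact h (isUnit_of_map_unit (evalAt a) f (isUnit_iff_ne_zero.mpr h0))

section Equivariance

variable {K' : Type*} [Field K'] (σ : K →+* K')

/-- coefficientwise action of a field hom on rational functions. -/
noncomputable def ratMap : RatFunc K →+* RatFunc K' :=
  RatFunc.mapRingHom (Polynomial.mapRingHom σ) (by
    intro p hp
    rw [Submonoid.mem_comap]
    rw [mem_nonZeroDivisors_iff_ne_zero] at hp ⊢
    rw [Polynomial.coe_mapRingHom]
    exact (Polynomial.map_ne_zero_iff σ.injective).mpr hp)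

lemma ratMap_algebraMap (p : K[X]) :
    ratMap σ (algebraMap K[X] (RatFunc K) p) = algebraMap K'[X] (RatFunc K') (p.map σ) := by
  unfold ratMap
  rw [RatFunc.coe_mapRingHom_eq_coe_map]
  have := RatFunc.map_apply_div (K := K) (R := K') (Polynomial.mapRingHom σ) (by
    intro p hp
    rw [Submonoid.mem_comap]
    rw [mem_nonZeroDivisors_iff_ne_zero] at hp ⊢
    rw [Polynomial.coe_mapRingHom]
    exact (Polynomial.map_ne_zero_iff σ.injective).mpr hp) p 1
  simpa using this

lemma ratMap_C (c : K) : ratMap σ (RatFunc.C c) = RatFunc.C (σ c) := by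
  have h1 : (RatFunc.C c : RatFunc K) = algebraMap K[X] (RatFunc K) (Polynomial.C c) := by
    simp [RatFunc.algebraMap_C]
  have h2 : (RatFunc.C (σ c) : RatFunc K') = algebraMap K'[X] (RatFunc K') (Polynomial.C (σ c)) := by
    simp [RatFunc.algebraMap_C]
  rw [h1, h2, ratMap_algebraMap, Polynomial.map_C]

lemma ratMap_X : ratMap σ (RatFunc.X : RatFunc K) = RatFunc.X := by
  have h1 : (RatFunc.X : RatFunc K) = algebraMap K[X] (RatFunc K) Polynomial.X := by
    simp [RatFunc.algebraMap_X]
  have h2 : (RatFunc.X : RatFunc K') = algebraMap K'[X] (RatFunc K') Polynomial.X := by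
    simp [RatFunc.algebraMap_X]
  rw [h1, h2, ratMap_algebraMap, Polynomial.map_X]

lemma ratMap_div (p q : K[X]) :
    ratMap σ (algebraMap K[X] (RatFunc K) p / algebraMap K[X] (RatFunc K) q) =
      algebraMap K'[X] (RatFunc K') (p.map σ) / algebraMap K'[X] (RatFunc K') (q.map σ) := by
  rw [map_div₀, ratMap_algebraMap, ratMap_algebraMap]

lemma regAt_ratMap {a : K} {f : RatFunc K} (hf : RegAt a f) : RegAt (σ a) (ratMap σ f) := by
  obtain ⟨p, q, hq, rfl⟩ := (regAt_iff a f).1 hf
  rw [ratMap_div]
  refine regAt_div _ _ ?_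
  rw [Polynomial.eval_map, Polynomial.eval₂_hom]
  exact (map_ne_zero σ).mpr hq

lemma valAt_ratMap {a : K} {f : RatFunc K} (hf : RegAt a f) :
    valAt (σ a) (ratMap σ f) = σ (valAt a f) := by
  obtain ⟨p, q, hq, rfl⟩ := (regAt_iff a f).1 hf
  have hq' : (q.map σ).eval (σ a) ≠ 0 := by
    rw [Polynomial.eval_map, Polynomial.eval₂_hom]
    exact (map_ne_zero σ).mpr hq
  rw [ratMap_div, valAt_div _ _ hq', valAt_div _ _ hq, map_div₀]
  simp [Polynomial.eval_map]

end Equivariance

end Fermat.Agent.S52.H170
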