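/-
S52 / piece (B1d), plumbing (helper170): maps on points induced by RING homs (Mathlib's
`Point.map` needs an `AlgHom` over a base where the curve is defined), and transport along an
equality of curves.

* `ptCongr (h : W = W') : W.Point ≃+ W'.Point`
* `ptMap W f : W.Point →+ (W.map f).toAffine.Point`         (`f : F →+* F'` a field hom)
* `ptMapTo f (h : W.map f = W') : W.Point →+ W'.Point`

Mathlib-only.
-/
import Mathlib

namespace Fermat.Agent.S52.H170

open WeierstrassCurve WeierstrassCurve.Affine

variable {F F' F'' : Type*} [Field F] [Field F'] [Field F'']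
  [DecidableEq F] [DecidableEq F'] [DecidableEq F'']

/-- transport of points along an equality of curves. -/
noncomputable def ptCongr {W W' : Affine F} (h : W = W') : W.Point ≃+ W'.Point := by
  subst h; exact AddEquiv.refl _

@[simp] lemma ptCongr_zero {W W' : Affine F} (h : W = W') : ptCongr h (0 : W.Point) = 0 := by
  subst h; rfl

lemma ptCongr_some {W W' : Affine F} (h : W = W') {x y : F} (hxy : W.Nonsingular x y) :
    ptCongr h (Point.some x y hxy) = Point.some x y (h ▸ hxy) := by
  subst h; rfl

lemma ptCongr_eq_zero_iff {W W' : Affine F} (h : W = W') (P : W.Point) :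
    ptCongr h P = 0 ↔ P = 0 := by
  subst h; rfl

/-- the group homomorphism on points induced by a field homomorphism. -/
noncomputable def ptMap (W : Affine F) (f : F →+* F') : W.Point →+ (W.map f).toAffine.Point where
  toFun P := match P with
    | 0 => 0
    | .some x y h => .some (f x) (f y) ((W.map_nonsingular f.injective x y).mpr h)
  map_zero' := rfl
  map_add' := by
    rintro (_ | ⟨x₁, y₁, h₁⟩) (_ | ⟨x₂, y₂, h₂⟩)
    any_goals rfl
    by_cases hxy : x₁ = x₂ ∧ y₁ = W.negY x₂ y₂
    · rw [Point.add_of_Y_eq hxy.left hxy.right,
        Point.add_of_Y_eq (congr_arg _ hxy.left) <| by rw [hxy.right, map_negY]]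
    · have hxy' : ¬(f x₁ = f x₂ ∧ f y₁ = (W.map f).toAffine.negY (f x₂) (f y₂)) := by
        rintro ⟨h1, h2⟩
        rw [map_negY] at h2
        exact hxy ⟨f.injective h1, f.injective h2⟩
      rw [Point.add_some hxy]
      show Point.some _ _ _ = Point.some _ _ _ + Point.some _ _ _
      rw [Point.add_some hxy']
      simp only [Point.some.injEq]
      rw [map_slope, map_addX, map_addY]
      exact ⟨rfl, rfl⟩

@[simp] lemma ptMap_zero (W : Affine F) (f : F →+* F') : ptMap W f 0 = 0 := rfl

lemma ptMap_some (W : Affine F) (f : F →+* F') {x y : F} (h : W.Nonsingular x y) :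
    ptMap W f (Point.some x y h) =
      Point.some (f x) (f y) ((W.map_nonsingular f.injective x y).mpr h) := rfl

lemma ptMap_injective (W : Affine F) (f : F →+* F') : Function.Injective (ptMap W f) := by
  rintro (_ | ⟨x₁, y₁, h₁⟩) (_ | ⟨x₂, y₂, h₂⟩) h
  · rfl
  · exact absurd h (by rw [ptMap_some]; exact (Point.some_ne_zero _).symm)
  · exact absurd h (by rw [ptMap_some]; exact Point.some_ne_zero _)
  · rw [ptMap_some, ptMap_some] at h
    have := Point.some.inj h
    have hx := f.injective this.1
    have hy := f.injective this.2
    subst hx; subst hy; rfl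

/-- the group homomorphism on points induced by a field homomorphism, with prescribed target. -/
noncomputable def ptMapTo {W : Affine F} {W' : Affine F'} (f : F →+* F')
    (h : W.map f = W') : W.Point →+ W'.Point :=
  (ptCongr (W := (W.map f).toAffine) (W' := W') h).toAddMonoidHom.comp (ptMap W f)

@[simp] lemma ptMapTo_zero {W : Affine F} {W' : Affine F'} (f : F →+* F')
    (h : W.map f = W') : ptMapTo f h 0 = 0 := map_zero _

lemma ptMapTo_some {W : Affine F} {W' : Affine F'} (f : F →+* F') (h : W.map f = W')
    {x y : F} (hxy : W.Nonsingular x y) :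
    ∃ hxy' : W'.Nonsingular (f x) (f y), ptMapTo f h (Point.some x y hxy) =
      Point.some (f x) (f y) hxy' := by
  subst h
  exact ⟨_, rfl⟩

lemma ptMapTo_injective {W : Affine F} {W' : Affine F'} (f : F →+* F') (h : W.map f = W') :
    Function.Injective (ptMapTo f h) := by
  subst h
  exact ptMap_injective W f

lemma ptMapTo_eq_zero_iff {W : Affine F} {W' : Affine F'} (f : F →+* F') (h : W.map f = W')
    (P : W.Point) : ptMapTo f h P = 0 ↔ P = 0 := by
  constructor
  · intro e; exact ptMapTo_injective f h (by rw [e, map_zero])
  · rintro rfl; exact map_zero _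

end Fermat.Agent.S52.H170
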