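/-
S52 / piece (B1d), part P3 (helper170): reduction of a Weierstrass curve over `K[t]` at the
place `t = a` of `K(t)`, obtained from the frozen interface `Lib.Red.GoodReduction`.
-/
import Mathlib
import Fermat.Agent.Lib.Red.Statement
import Fermat.Agent.S05.C1b
import Fermat.Agent.S05.GoodRed
import Fermat.Agent.S52.H170.Place
import Fermat.Agent.S52.H170.PtMap

set_option autoImplicit false

namespace Fermat.Agent.S52.H170

open Polynomial WeierstrassCurve WeierstrassCurve.Affine

universe u

variable {K : Type u} [Field K]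

/-- polynomials are regular everywhere. -/
noncomputable def polyToPlace (a : K) : K[X] →+* placeAt a :=
  (algebraMap K[X] (RatFunc K)).codRestrict (placeAt a) (fun p => regAt_algebraMap a p)

@[simp] lemma polyToPlace_coe (a : K) (p : K[X]) :
    ((polyToPlace a p : placeAt a) : RatFunc K) = algebraMap K[X] (RatFunc K) p := rfl

lemma algebraMap_comp_polyToPlace (a : K) :
    (algebraMap (placeAt a) (RatFunc K)).comp (polyToPlace a) = algebraMap K[X] (RatFunc K) := by
  ext p <;> rfl

lemma evalAt_comp_polyToPlace (a : K) :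
    (evalAt a).comp (polyToPlace a) = Polynomial.evalRingHom a := by
  apply RingHom.ext
  intro p
  simp [evalAt_apply]

/-- the residue field of the place `t = a` is `K`. -/
noncomputable def resToK (a : K) : IsLocalRing.ResidueField (placeAt a) →+* K :=
  IsLocalRing.ResidueField.lift (evalAt a)

lemma resToK_residue (a : K) (f : placeAt a) :
    resToK a (IsLocalRing.residue (placeAt a) f) = valAt a f.1 := by
  unfold resToK
  rw [IsLocalRing.ResidueField.lift_residue_apply]
  rfl

lemma resToK_comp (a : K) :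
    ((resToK a).comp (algebraMap (placeAt a) (IsLocalRing.ResidueField (placeAt a)))).comp
      (polyToPlace a) = Polynomial.evalRingHom a := by
  apply RingHom.ext
  intro p
  show resToK a (IsLocalRing.residue (placeAt a) (polyToPlace a p)) = _
  rw [resToK_residue]
  simp

/-- the family curve over `K(t)`. -/
noncomputable abbrev famL (𝕎 : WeierstrassCurve K[X]) : Affine (RatFunc K) :=
  (𝕎.map (algebraMap K[X] (RatFunc K))).toAffine

/-- the fibre of the family at `t = a`. -/
noncomputable abbrev fibre (𝕎 : WeierstrassCurve K[X]) (a : K) : Affine K :=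
  (𝕎.map (Polynomial.evalRingHom a)).toAffine

/-- properties characterising the reduction map at `t = a`. -/
structure IsRedAt [DecidableEq K] [DecidableEq (RatFunc K)] (𝕎 : WeierstrassCurve K[X]) (a : K)
    (red : (famL 𝕎).Point →+ (fibre 𝕎 a).Point) : Prop where
  some_reg : ∀ (x y : RatFunc K) (h : (famL 𝕎).Nonsingular x y), RegAt a x → RegAt a y →
    ∃ h' : (fibre 𝕎 a).Nonsingular (valAt a x) (valAt a y),
      red (Point.some x y h) = Point.some (valAt a x) (valAt a y) h'
  some_not_reg : ∀ (x y : RatFunc K) (h : (famL 𝕎).Nonsingular x y), ¬ RegAt a x →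
    red (Point.some x y h) = 0

theorem exists_isRedAt [DecidableEq K] [DecidableEq (RatFunc K)]
    (GR : Fermat.Agent.Lib.Red.GoodReduction.{u})
    (𝕎 : WeierstrassCurve K[X]) (a : K) (hΔ : 𝕎.Δ.eval a ≠ 0) :
    ∃ red : (famL 𝕎).Point →+ (fibre 𝕎 a).Point, IsRedAt 𝕎 a red := by
  classical
  set W₀ : WeierstrassCurve (placeAt a) := 𝕎.map (polyToPlace a) with hW₀
  have hunit : IsUnit W₀.Δ := by
    rw [hW₀, WeierstrassCurve.map_Δ]
    apply isUnit_of_map_unit (evalAt a)
    rw [isUnit_iff_ne_zero]
    simpa [evalAt_apply] using hΔ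
  obtain ⟨red, hred1, hred2⟩ := GR (RatFunc K) (placeAt a) W₀ hunit
  have h₁ : famL 𝕎 = (W₀⁄(RatFunc K)) := by
    show 𝕎.map _ = (𝕎.map _).map _
    rw [WeierstrassCurve.map_map, algebraMap_comp_polyToPlace]
  have h₂ : (W₀⁄(IsLocalRing.ResidueField (placeAt a))).map (resToK a) = fibre 𝕎 a := by
    show ((𝕎.map _).map _).map _ = 𝕎.map _
    rw [WeierstrassCurve.map_map, WeierstrassCurve.map_map, resToK_comp]
  refine ⟨(ptMapTo (resToK a) h₂).comp (red.comp (ptCongr h₁).toAddMonoidHom), ?_, ?_⟩
  · intro x y h hx hy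
    have e1 : (ptCongr h₁) (Point.some x y h) = Point.some x y (h₁ ▸ h) := ptCongr_some h₁ h
    obtain ⟨h', e2⟩ := hred1 x y (h₁ ▸ h) hx hy
    obtain ⟨h'', e3⟩ := ptMapTo_some (resToK a) h₂ h'
    have hvx : resToK a (IsLocalRing.residue (placeAt a) ⟨x, hx⟩) = valAt a x :=
      resToK_residue a ⟨x, hx⟩
    have hvy : resToK a (IsLocalRing.residue (placeAt a) ⟨y, hy⟩) = valAt a y :=
      resToK_residue a ⟨y, hy⟩
    have h''' : (fibre 𝕎 a).Nonsingular (valAt a x) (valAt a y) := by
      rw [← hvx, ← hvy]; exact h''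
    refine ⟨h''', ?_⟩
    simp only [AddMonoidHom.comp_apply, AddEquiv.toAddMonoidHom_eq_coe, AddMonoidHom.coe_coe]
    rw [e1, e2, e3]
    simp only [Point.some.injEq]
    exact ⟨hvx, hvy⟩
  · intro x y h hx
    have e1 : (ptCongr h₁) (Point.some x y h) = Point.some x y (h₁ ▸ h) := ptCongr_some h₁ h
    have e2 := hred2 x y (h₁ ▸ h) hx
    simp only [AddMonoidHom.comp_apply, AddEquiv.toAddMonoidHom_eq_coe, AddMonoidHom.coe_coe]
    rw [e1, e2, map_zero]

end Fermat.Agent.S52.H170
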