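/-
S52 / piece (B1d), part P2 (helper170): ABSTRACT rigidity.

Two additive maps `r0 : E →+ E0`, `r1 : E →+ E1` which are injective on `n`-torsion, and such that
every `n`-torsion element of `E0` lifts to an `n`-torsion element of `E`.  Then
`θ := r1 ∘ (r0|E[n])⁻¹ : E0[n] →+ E1[n]` is a well defined injective additive map, characterised by
`θ (r0 P) = r1 P` for `P ∈ E[n]`; it is equivariant for every triple of compatible endomorphisms.

Mathlib-only.
-/
import Mathlib

namespace Fermat.Agent.S52.H170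

variable {E E0 E1 : Type*} [AddCommGroup E] [AddCommGroup E0] [AddCommGroup E1]

/-- data for the rigidity argument. -/
structure RigidData (n : ℕ) (r0 : E →+ E0) (r1 : E →+ E1) : Prop where
  inj0 : ∀ P : E, n • P = 0 → r0 P = 0 → P = 0
  inj1 : ∀ P : E, n • P = 0 → r1 P = 0 → P = 0
  lift : ∀ Q : E0, n • Q = 0 → ∃ P : E, n • P = 0 ∧ r0 P = Q

namespace RigidData

variable {n : ℕ} {r0 : E →+ E0} {r1 : E →+ E1}

lemma mem_torsionBy_iff_nsmul {M : Type*} [AddCommGroup M] (n : ℕ) (x : M) :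
    x ∈ Submodule.torsionBy ℤ M (n : ℤ) ↔ n • x = 0 := by
  rw [Submodule.mem_torsionBy_iff, natCast_zsmul]

lemma lift_unique (h : RigidData n r0 r1) {P P' : E} (hP : n • P = 0) (hP' : n • P' = 0)
    (e : r0 P = r0 P') : P = P' := by
  have h1 : n • (P - P') = 0 := by rw [smul_sub, hP, hP', sub_zero]
  have h2 : r0 (P - P') = 0 := by rw [map_sub, e, sub_self]
  exact sub_eq_zero.mp (h.inj0 _ h1 h2)

/-- the chosen lift of an `n`-torsion element. -/
noncomputable def liftFun (h : RigidData n r0 r1) (Q : Submodule.torsionBy ℤ E0 (n : ℤ)) : E :=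
  (h.lift Q.1 ((mem_torsionBy_iff_nsmul n Q.1).1 Q.2)).choose

lemma liftFun_nsmul (h : RigidData n r0 r1) (Q : Submodule.torsionBy ℤ E0 (n : ℤ)) :
    n • h.liftFun Q = 0 :=
  (h.lift Q.1 ((mem_torsionBy_iff_nsmul n Q.1).1 Q.2)).choose_spec.1

lemma r0_liftFun (h : RigidData n r0 r1) (Q : Submodule.torsionBy ℤ E0 (n : ℤ)) :
    r0 (h.liftFun Q) = Q.1 :=
  (h.lift Q.1 ((mem_torsionBy_iff_nsmul n Q.1).1 Q.2)).choose_spec.2

lemma liftFun_eq (h : RigidData n r0 r1) (Q : Submodule.torsionBy ℤ E0 (n : ℤ)) {P : E}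
    (hP : n • P = 0) (e : r0 P = Q.1) : h.liftFun Q = P :=
  h.lift_unique (h.liftFun_nsmul Q) hP (by rw [h.r0_liftFun, e])

/-- **Rigidity map** `θ = r1 ∘ (r0|E[n])⁻¹`. -/
noncomputable def theta (h : RigidData n r0 r1) :
    Submodule.torsionBy ℤ E0 (n : ℤ) →+ Submodule.torsionBy ℤ E1 (n : ℤ) where
  toFun Q := ⟨r1 (h.liftFun Q), by
    rw [mem_torsionBy_iff_nsmul, ← map_nsmul, h.liftFun_nsmul, map_zero]⟩
  map_zero' := by
    apply Subtype.ext
    have : h.liftFun 0 = 0 := h.liftFun_eq 0 (by simp) (by simp)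
    simp [this]
  map_add' Q Q' := by
    apply Subtype.ext
    have : h.liftFun (Q + Q') = h.liftFun Q + h.liftFun Q' :=
      h.liftFun_eq _ (by rw [smul_add, h.liftFun_nsmul, h.liftFun_nsmul, add_zero])
        (by rw [map_add, h.r0_liftFun, h.r0_liftFun]; rfl)
    simp [this]

lemma theta_coe (h : RigidData n r0 r1) (Q : Submodule.torsionBy ℤ E0 (n : ℤ)) :
    ((h.theta Q : Submodule.torsionBy ℤ E1 (n : ℤ)) : E1) = r1 (h.liftFun Q) := rfl

/-- characterisation of `θ`. -/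
lemma theta_r0 (h : RigidData n r0 r1) {P : E} (hP : n • P = 0)
    (Q : Submodule.torsionBy ℤ E0 (n : ℤ)) (e : r0 P = Q.1) :
    ((h.theta Q : Submodule.torsionBy ℤ E1 (n : ℤ)) : E1) = r1 P := by
  rw [theta_coe, h.liftFun_eq Q hP e]

lemma theta_injective (h : RigidData n r0 r1) : Function.Injective h.theta := by
  rw [injective_iff_map_eq_zero]
  intro Q hQ
  have h1 : r1 (h.liftFun Q) = 0 := by
    have := congrArg Subtype.val hQ
    simpa [theta_coe] using this
  have h2 := h.inj1 _ (h.liftFun_nsmul Q) h1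
  apply Subtype.ext
  rw [← h.r0_liftFun Q, h2, map_zero]; rfl

/-- **Equivariance** of `θ` for compatible additive endomorphisms `(s, s0, s1)`. -/
lemma theta_equivariant (h : RigidData n r0 r1) (s : E →+ E) (s0 : E0 →+ E0) (s1 : E1 →+ E1)
    (c0 : ∀ P : E, n • P = 0 → r0 (s P) = s0 (r0 P))
    (c1 : ∀ P : E, n • P = 0 → r1 (s P) = s1 (r1 P))
    (Q Q' : Submodule.torsionBy ℤ E0 (n : ℤ)) (e : Q'.1 = s0 Q.1) :
    ((h.theta Q' : Submodule.torsionBy ℤ E1 (n : ℤ)) : E1) = s1 (h.theta Q).1 := by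
  have hP := h.liftFun_nsmul Q
  have hsP : n • s (h.liftFun Q) = 0 := by rw [← map_nsmul, hP, map_zero]
  rw [h.theta_r0 hsP Q' (by rw [c0 _ hP, h.r0_liftFun, e]), c1 _ hP, theta_coe]

end RigidData

end Fermat.Agent.S52.H170
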