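/-
S52 / piece (B1d), part P4 (helper170): properties of the reduction at `t = a`
(injective on `n`-torsion, compatible with field homs acting on coefficients) and the
RIGIDITY THEOREM `exists_theta`.
-/
import Mathlib
import Fermat.Agent.S52.H170.RedAt
import Fermat.Agent.S52.H170.Rigid

set_option autoImplicit false

namespace Fermat.Agent.S52.H170

open Polynomial WeierstrassCurve WeierstrassCurve.Affine

universe u

variable {K : Type u} [Field K]

lemma valuation_le_one_iff_regAt (a : K) (f : RatFunc K) :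
    (placeAt a).valuation f ≤ 1 ↔ RegAt a f := by
  rw [ValuationSubring.valuation_le_one_iff]; rfl

lemma integralCoeffs_famL (𝕎 : WeierstrassCurve K[X]) (a : K) :
    Fermat.Agent.S05.SameRed.IntegralCoeffs (famL 𝕎) (placeAt a).valuation where
  a₁ := (valuation_le_one_iff_regAt a _).2 (regAt_algebraMap a _)
  a₂ := (valuation_le_one_iff_regAt a _).2 (regAt_algebraMap a _)
  a₃ := (valuation_le_one_iff_regAt a _).2 (regAt_algebraMap a _)
  a₄ := (valuation_le_one_iff_regAt a _).2 (regAt_algebraMap a _)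
  a₆ := (valuation_le_one_iff_regAt a _).2 (regAt_algebraMap a _)

lemma regAt_natCast (a : K) (n : ℕ) : RegAt a ((n : RatFunc K)) := by
  have : ((n : RatFunc K)) = algebraMap K[X] (RatFunc K) (n : K[X]) := by simp
  rw [this]; exact regAt_algebraMap a _

lemma valAt_natCast (a : K) (n : ℕ) : valAt a ((n : RatFunc K)) = (n : K) := by
  have : ((n : RatFunc K)) = algebraMap K[X] (RatFunc K) (n : K[X]) := by simp
  rw [this, valAt_algebraMap]; simp

lemma valuation_natCast_eq_one (a : K) {n : ℕ} (hn : (n : K) ≠ 0) :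
    (placeAt a).valuation ((n : RatFunc K)) = 1 := by
  have hu : IsUnit (⟨(n : RatFunc K), regAt_natCast a n⟩ : placeAt a) := by
    apply isUnit_of_map_unit (evalAt a)
    rw [isUnit_iff_ne_zero, evalAt_apply]
    simpa [valAt_natCast] using hn
  exact (ValuationSubring.valuation_eq_one_iff (placeAt a) _).1 hu

/-- on the family curve, a point with `x` regular at `a` has `y` regular at `a`. -/
lemma regAt_y_of_regAt_x (𝕎 : WeierstrassCurve K[X]) (a : K) {x y : RatFunc K}
    (h : (famL 𝕎).Equation x y) (hx : RegAt a x) : RegAt a y := by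
  classical
  rw [← valuation_le_one_iff_regAt] at hx ⊢
  exact Fermat.Agent.S05.GoodRed.val_y_le_one (integralCoeffs_famL 𝕎 a) h hx

section
variable [DecidableEq K] [DecidableEq (RatFunc K)]

/-- **(C1 at the place `t = a`)**: reduction is injective on `n`-torsion, `n` invertible in `K`. -/
theorem IsRedAt.eq_zero_of_nsmul {𝕎 : WeierstrassCurve K[X]} {a : K}
    {red : (famL 𝕎).Point →+ (fibre 𝕎 a).Point} (hred : IsRedAt 𝕎 a red) {n : ℕ}
    (hn : (n : K) ≠ 0) (P : (famL 𝕎).Point) (hP : n • P = 0) (h0 : red P = 0) : P = 0 := by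
  rcases P with _ | ⟨x, y, h⟩
  · rfl
  · exfalso
    have hxy := Fermat.Agent.S05.C1b.val_x_le_one_of_nsmul_eq_zero (integralCoeffs_famL 𝕎 a)
      (valuation_natCast_eq_one a hn) h hP
    rw [valuation_le_one_iff_regAt, valuation_le_one_iff_regAt] at hxy
    obtain ⟨h', e⟩ := hred.some_reg x y h hxy.1 hxy.2
    rw [e] at h0
    exact Point.some_ne_zero _ h0

end

section Equivariance

variable (σ : K →+* K)

lemma not_regAt_ratMap {a : K} {f : RatFunc K} (hf : ¬ RegAt a f) :
    ¬ RegAt (σ a) (ratMap σ f) := by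
  intro hreg
  obtain ⟨h1, h2⟩ := regAt_inv_of_not_regAt hf
  have hf0 : f ≠ 0 := by rintro rfl; exact hf (regAt_zero a)
  have h3 := regAt_ratMap σ h1
  have h4 := valAt_ratMap σ h1
  rw [h2, map_zero] at h4
  have h5 := valAt_mul hreg h3
  rw [← map_mul, mul_inv_cancel₀ hf0, map_one, valAt_one, h4, mul_zero] at h5
  exact one_ne_zero h5

lemma ratMap_comp_algebraMap :
    (ratMap σ).comp (algebraMap K[X] (RatFunc K)) =
      (algebraMap K[X] (RatFunc K)).comp (Polynomial.mapRingHom σ) := by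
  apply RingHom.ext
  intro p
  simp [ratMap_algebraMap]

lemma comp_evalRingHom (a : K) :
    σ.comp (Polynomial.evalRingHom a) =
      (Polynomial.evalRingHom (σ a)).comp (Polynomial.mapRingHom σ) := by
  apply RingHom.ext
  intro p
  simp [Polynomial.eval_map]

lemma famL_map {𝕎 𝕎' : WeierstrassCurve K[X]} (h𝕎 : 𝕎.map (Polynomial.mapRingHom σ) = 𝕎') :
    (famL 𝕎).map (ratMap σ) = famL 𝕎' := by
  show (𝕎.map _).map _ = 𝕎'.map _
  rw [WeierstrassCurve.map_map, ratMap_comp_algebraMap, ← WeierstrassCurve.map_map, h𝕎]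

lemma fibre_map {𝕎 𝕎' : WeierstrassCurve K[X]} {a a' : K} (hσa : σ a = a')
    (h𝕎 : 𝕎.map (Polynomial.mapRingHom σ) = 𝕎') :
    (fibre 𝕎 a).map σ = fibre 𝕎' a' := by
  show (𝕎.map _).map _ = 𝕎'.map _
  rw [WeierstrassCurve.map_map, comp_evalRingHom, ← WeierstrassCurve.map_map, h𝕎, hσa]

variable [DecidableEq K] [DecidableEq (RatFunc K)]

/-- **Equivariance of reduction** under a field hom acting on coefficients. -/
theorem IsRedAt.equivariant {𝕎 𝕎' : WeierstrassCurve K[X]} {a a' : K} (hσa : σ a = a')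
    (h𝕎 : 𝕎.map (Polynomial.mapRingHom σ) = 𝕎')
    {red : (famL 𝕎).Point →+ (fibre 𝕎 a).Point} (hred : IsRedAt 𝕎 a red)
    {red' : (famL 𝕎').Point →+ (fibre 𝕎' a').Point} (hred' : IsRedAt 𝕎' a' red')
    (P : (famL 𝕎).Point) :
    red' (ptMapTo (ratMap σ) (famL_map σ h𝕎) P) = ptMapTo σ (fibre_map σ hσa h𝕎) (red P) := by
  rcases P with _ | ⟨x, y, h⟩
  · show red' (ptMapTo (ratMap σ) (famL_map σ h𝕎) 0) = ptMapTo σ (fibre_map σ hσa h𝕎) (red 0)
    simp
  · obtain ⟨hL, eL⟩ := ptMapTo_some (ratMap σ) (famL_map σ h𝕎) h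
    rw [eL]
    by_cases hx : RegAt a x
    · have hy : RegAt a y := regAt_y_of_regAt_x 𝕎 a h.1 hx
      obtain ⟨h1, e1⟩ := hred.some_reg x y h hx hy
      have hx' : RegAt a' (ratMap σ x) := hσa ▸ regAt_ratMap σ hx
      have hy' : RegAt a' (ratMap σ y) := hσa ▸ regAt_ratMap σ hy
      obtain ⟨h2, e2⟩ := hred'.some_reg _ _ hL hx' hy'
      obtain ⟨h3, e3⟩ := ptMapTo_some σ (fibre_map σ hσa h𝕎) h1
      rw [e1, e2, e3]
      simp only [Point.some.injEq]
      subst hσa
      exact ⟨valAt_ratMap σ hx, valAt_ratMap σ hy⟩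
    · have hx' : ¬ RegAt a' (ratMap σ x) := hσa ▸ not_regAt_ratMap σ hx
      rw [hred.some_not_reg x y h hx, hred'.some_not_reg _ _ hL hx', map_zero]

end Equivariance

end Fermat.Agent.S52.H170
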