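/-
S52 / piece (B1d) (helper170): the RIGIDITY THEOREM.

`𝕎` a Weierstrass curve over `K[t]`, `a₀ a₁ : K` two parameters of good reduction
(`Δ(𝕎)(aᵢ) ≠ 0`), `n` invertible in `K`.  If every `n`-torsion point of the fibre at `a₀` lifts to an
`n`-torsion point of `𝕎` over `K(t)` (regular at `a₀`), then there is an INJECTIVE ADDITIVE map
`θ : 𝕎_{a₀}[n] → 𝕎_{a₁}[n]` commuting with every field endomorphism `σ` of `K` fixing `a₀`, `a₁`
and the coefficients of `𝕎`.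

No two-point identities, no equivariance of the Tate parameters are needed: `θ = red₁ ∘ red₀⁻¹`.
Input: the frozen interface `Lib.Red.GoodReduction` (as a hypothesis) and landed S05 (C1).
-/
import Mathlib
import Fermat.Agent.S52.H170.RedAt2

set_option autoImplicit false

namespace Fermat.Agent.S52.H170

open Polynomial WeierstrassCurve WeierstrassCurve.Affine

universe u

variable {K : Type u} [Field K] [DecidableEq K] [DecidableEq (RatFunc K)]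

/-- the lifting hypothesis: every `n`-torsion point of the fibre at `a₀` is the value at `a₀` of an
`n`-torsion point of the family over `K(t)`. -/
def HasTorsionLifts (𝕎 : WeierstrassCurve K[X]) (a₀ : K) (n : ℕ) : Prop :=
  ∀ (x y : K) (h : (fibre 𝕎 a₀).Nonsingular x y), n • Point.some x y h = 0 →
    ∃ (X Y : RatFunc K) (H : (famL 𝕎).Nonsingular X Y),
      n • Point.some X Y H = 0 ∧ RegAt a₀ X ∧ valAt a₀ X = x ∧ valAt a₀ Y = y

theorem rigidData_of_lifts {𝕎 : WeierstrassCurve K[X]} {a₀ a₁ : K} {n : ℕ} (hn : (n : K) ≠ 0)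
    (hlift : HasTorsionLifts 𝕎 a₀ n)
    {red₀ : (famL 𝕎).Point →+ (fibre 𝕎 a₀).Point} (hred₀ : IsRedAt 𝕎 a₀ red₀)
    {red₁ : (famL 𝕎).Point →+ (fibre 𝕎 a₁).Point} (hred₁ : IsRedAt 𝕎 a₁ red₁) :
    RigidData n red₀ red₁ where
  inj0 := fun P hP h0 => hred₀.eq_zero_of_nsmul hn P hP h0
  inj1 := fun P hP h0 => hred₁.eq_zero_of_nsmul hn P hP h0
  lift := by
    rintro (_ | ⟨x, y, h⟩) hQ
    · exact ⟨0, by simp, by rw [map_zero]; rfl⟩
    · obtain ⟨X, Y, H, hn0, hX, hx, hy⟩ := hlift x y h hQ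
      refine ⟨Point.some X Y H, hn0, ?_⟩
      have hY : RegAt a₀ Y := regAt_y_of_regAt_x 𝕎 a₀ H.1 hX
      obtain ⟨h', e⟩ := hred₀.some_reg X Y H hX hY
      rw [e]
      subst hx; subst hy
      rfl

/-- **RIGIDITY (B1d).** -/
theorem exists_theta (GR : Fermat.Agent.Lib.Red.GoodReduction.{u})
    (𝕎 : WeierstrassCurve K[X]) (a₀ a₁ : K)
    (h₀ : 𝕎.Δ.eval a₀ ≠ 0) (h₁ : 𝕎.Δ.eval a₁ ≠ 0) (n : ℕ) (hn : (n : K) ≠ 0)
    (hlift : HasTorsionLifts 𝕎 a₀ n) :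
    ∃ θ : Submodule.torsionBy ℤ (fibre 𝕎 a₀).Point (n : ℤ) →+
        Submodule.torsionBy ℤ (fibre 𝕎 a₁).Point (n : ℤ),
      Function.Injective θ ∧
      ∀ (σ : K →+* K) (hσ0 : σ a₀ = a₀) (hσ1 : σ a₁ = a₁)
        (h𝕎 : 𝕎.map (Polynomial.mapRingHom σ) = 𝕎)
        (Q Q' : Submodule.torsionBy ℤ (fibre 𝕎 a₀).Point (n : ℤ)),
        (Q' : (fibre 𝕎 a₀).Point) = ptMapTo σ (fibre_map σ hσ0 h𝕎) (Q : (fibre 𝕎 a₀).Point) →
        ((θ Q' : Submodule.torsionBy ℤ (fibre 𝕎 a₁).Point (n : ℤ)) : (fibre 𝕎 a₁).Point) =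
          ptMapTo σ (fibre_map σ hσ1 h𝕎) (θ Q : (fibre 𝕎 a₁).Point) := by
  obtain ⟨red₀, hred₀⟩ := exists_isRedAt GR 𝕎 a₀ h₀
  obtain ⟨red₁, hred₁⟩ := exists_isRedAt GR 𝕎 a₁ h₁
  have hR := rigidData_of_lifts hn hlift hred₀ hred₁
  refine ⟨hR.theta, hR.theta_injective, ?_⟩
  intro σ hσ0 hσ1 h𝕎 Q Q' hQ
  exact hR.theta_equivariant (ptMapTo (ratMap σ) (famL_map σ h𝕎))
    (ptMapTo σ (fibre_map σ hσ0 h𝕎)) (ptMapTo σ (fibre_map σ hσ1 h𝕎))
    (fun P _ => hred₀.equivariant σ hσ0 h𝕎 hred₀ P)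
    (fun P _ => hred₁.equivariant σ hσ1 h𝕎 hred₁ P) Q Q' hQ

end Fermat.Agent.S52.H170
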