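/-
S52 / piece (B1) output (helper170): from a family `𝕎` over `ℚ̄[t]` with Galois-fixed coefficients,
fibres `W` (at `a₀`) and `W'` (at `a₁`) and 5-torsion lifts at `a₀`, to the frozen
`Fermat.Agent.S52.FiveCongruent W W'` of `Top.lean`.
GR is now discharged by the landed `Fermat.Agent.Lib.Red.goodReduction`.
-/
import Mathlib
import Fermat.Agent.S52.Top
import Fermat.Agent.Lib.Red.Main
import Fermat.Agent.S52.H170.Theta

set_option autoImplicit false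

namespace Fermat.Agent.S52.H170

open Polynomial WeierstrassCurve WeierstrassCurve.Affine

universe u

section General

variable {K : Type u} [Field K] [DecidableEq K] [DecidableEq (RatFunc K)]

/-- `exists_theta` with GR discharged and prescribed fibres. -/
theorem exists_theta_to (𝕎 : WeierstrassCurve K[X]) (a₀ a₁ : K) (E₀ E₁ : Affine K)
    (hE₀ : fibre 𝕎 a₀ = E₀) (hE₁ : fibre 𝕎 a₁ = E₁)
    (h₀ : 𝕎.Δ.eval a₀ ≠ 0) (h₁ : 𝕎.Δ.eval a₁ ≠ 0) (n : ℕ) (hn : (n : K) ≠ 0)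
    (hlift : HasTorsionLifts 𝕎 a₀ n) :
    ∃ θ : Submodule.torsionBy ℤ E₀.Point (n : ℤ) →+ Submodule.torsionBy ℤ E₁.Point (n : ℤ),
      Function.Injective θ ∧
      ∀ (σ : K →+* K) (_ : σ a₀ = a₀) (_ : σ a₁ = a₁)
        (_ : 𝕎.map (Polynomial.mapRingHom σ) = 𝕎)
        (hE₀σ : E₀.map σ = E₀) (hE₁σ : E₁.map σ = E₁)
        (Q Q' : Submodule.torsionBy ℤ E₀.Point (n : ℤ)),
        (Q' : E₀.Point) = ptMapTo σ hE₀σ (Q : E₀.Point) →
        ((θ Q' : Submodule.torsionBy ℤ E₁.Point (n : ℤ)) : E₁.Point) =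
          ptMapTo σ hE₁σ (θ Q : E₁.Point) := by
  subst hE₀; subst hE₁
  obtain ⟨θ, hinj, heq⟩ :=
    exists_theta Fermat.Agent.Lib.Red.goodReduction 𝕎 a₀ a₁ h₀ h₁ n hn hlift
  exact ⟨θ, hinj, fun σ hσ0 hσ1 h𝕎 _ _ Q Q' hQ => heq σ hσ0 hσ1 h𝕎 Q Q' hQ⟩

end General

section Prelude

variable {R : Type*} {S : Type*} {K : Type*} [CommRing R] [CommRing S] [Field K]
  [DecidableEq K] {W' : Affine R} [Algebra R S] [Algebra R K] [Algebra S K]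
  [IsScalarTower R S K]

lemma baseChange_map_algEquiv (σ : K ≃ₐ[S] K) :
    (W'⁄K).map ((σ : K ≃ₐ[S] K) : K →+* K) = W'⁄K :=
  WeierstrassCurve.map_baseChange (W := W') σ.toAlgHom

/-- the Prelude Galois action on points is `ptMapTo`. -/
lemma smul_eq_ptMapTo (σ : K ≃ₐ[S] K) (h : (W'⁄K).map ((σ : K ≃ₐ[S] K) : K →+* K) = W'⁄K)
    (P : (W'⁄K).Point) : σ • P = ptMapTo ((σ : K ≃ₐ[S] K) : K →+* K) h P := by
  rcases P with _ | ⟨x, y, hxy⟩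
  · show σ • (0 : (W'⁄K).Point) = ptMapTo _ h 0
    rw [smul_zero, map_zero]
  · obtain ⟨h', e⟩ := ptMapTo_some ((σ : K ≃ₐ[S] K) : K →+* K) h hxy
    rw [e]
    rfl

end Prelude

section Final

open Fermat.Agent.Lib.Frob (Qb Pts)

/-- **B1 output.** -/
theorem fiveCongruent_of_family (W W' : WeierstrassCurve ℤ)
    (𝕎 : WeierstrassCurve Qb[X]) (a₀ a₁ : Qb)
    (hfix : ∀ σ : Qb ≃ₐ[ℚ] Qb, σ a₀ = a₀ ∧ σ a₁ = a₁ ∧
      𝕎.map (Polynomial.mapRingHom ((σ : Qb ≃ₐ[ℚ] Qb) : Qb →+* Qb)) = 𝕎)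
    (hW : fibre 𝕎 a₀ = ((W.map (Int.castRingHom ℚ))⁄Qb))
    (hW' : fibre 𝕎 a₁ = ((W'.map (Int.castRingHom ℚ))⁄Qb))
    (h₀ : 𝕎.Δ.eval a₀ ≠ 0) (h₁ : 𝕎.Δ.eval a₁ ≠ 0)
    (hlift : @HasTorsionLifts Qb _ _ (Classical.decEq _) 𝕎 a₀ 5) :
    Fermat.Agent.S52.FiveCongruent W W' := by
  letI : DecidableEq (RatFunc Qb) := Classical.decEq _
  have h5 : ((5 : ℕ) : Qb) ≠ 0 := by norm_num
  obtain ⟨θ, hinj, heq⟩ := exists_theta_to 𝕎 a₀ a₁ _ _ hW hW' h₀ h₁ 5 h5 hlift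
  refine ⟨θ, hinj, ?_⟩
  intro σ P
  obtain ⟨hσ0, hσ1, h𝕎⟩ := hfix σ
  apply Subtype.ext
  have key := heq ((σ : Qb ≃ₐ[ℚ] Qb) : Qb →+* Qb) hσ0 hσ1 h𝕎
    (baseChange_map_algEquiv σ) (baseChange_map_algEquiv σ) P (σ • P)
    (smul_eq_ptMapTo σ _ (P : Pts W))
  rw [key]
  exact (smul_eq_ptMapTo σ _ ((θ P : Fermat.Agent.S52.Tors W' 5) : Pts W')).symm

end Final

end Fermat.Agent.S52.H170

namespace Fermat.Agent.S52.H170

open Polynomial WeierstrassCurve WeierstrassCurve.Affine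

section FinalRat

open Fermat.Agent.Lib.Frob (Qb Pts)

lemma evalRingHom_comp_mapRingHom {A B : Type*} [CommRing A] [CommRing B] (ι : A →+* B) (a : A) :
    (Polynomial.evalRingHom (ι a)).comp (Polynomial.mapRingHom ι) =
      ι.comp (Polynomial.evalRingHom a) := by
  apply RingHom.ext
  intro p
  simp [Polynomial.eval_map]

/-- the family over `ℚ̄[t]` obtained from a family over `ℚ[t]`. -/
noncomputable abbrev famQb (𝕎 : WeierstrassCurve ℚ[X]) : WeierstrassCurve Qb[X] :=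
  𝕎.map (Polynomial.mapRingHom (algebraMap ℚ Qb))

lemma fibre_famQb (𝕎 : WeierstrassCurve ℚ[X]) (a : ℚ) (E : WeierstrassCurve ℚ)
    (hE : 𝕎.map (Polynomial.evalRingHom a) = E) :
    fibre (famQb 𝕎) (algebraMap ℚ Qb a) = (E⁄Qb) := by
  show (𝕎.map _).map _ = E.map _
  rw [WeierstrassCurve.map_map, evalRingHom_comp_mapRingHom, ← WeierstrassCurve.map_map, hE]

lemma famQb_fixed (𝕎 : WeierstrassCurve ℚ[X]) (σ : Qb ≃ₐ[ℚ] Qb) :
    (famQb 𝕎).map (Polynomial.mapRingHom ((σ : Qb ≃ₐ[ℚ] Qb) : Qb →+* Qb)) = famQb 𝕎 := by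
  show (𝕎.map _).map _ = 𝕎.map _
  rw [WeierstrassCurve.map_map]
  congr 1
  apply RingHom.ext
  intro p
  simp only [RingHom.comp_apply, Polynomial.coe_mapRingHom, Polynomial.map_map]
  congr 1
  apply RingHom.ext
  intro q
  simp

lemma eval_Δ_famQb (𝕎 : WeierstrassCurve ℚ[X]) (a : ℚ) (E : WeierstrassCurve ℤ)
    (hE : 𝕎.map (Polynomial.evalRingHom a) = E.map (Int.castRingHom ℚ)) (hΔ : E.Δ ≠ 0) :
    (famQb 𝕎).Δ.eval (algebraMap ℚ Qb a) ≠ 0 := by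
  have h1 : (fibre (famQb 𝕎) (algebraMap ℚ Qb a)).Δ = (famQb 𝕎).Δ.eval (algebraMap ℚ Qb a) := by
    show (WeierstrassCurve.map _ _).Δ = _
    rw [WeierstrassCurve.map_Δ]; rfl
  rw [← h1, fibre_famQb 𝕎 a _ hE]
  show (WeierstrassCurve.map _ _).Δ ≠ 0
  rw [WeierstrassCurve.map_Δ, WeierstrassCurve.map_Δ]
  intro h
  have h2 := (algebraMap ℚ Qb).injective (h.trans (map_zero _).symm)
  exact hΔ (Int.cast_injective (h2.trans Int.cast_zero.symm))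

/-- **B1 output, family over `ℚ[t]`.**  A Weierstrass curve `𝕎` over `ℚ[t]` with fibres `W` at
`a₀` and `W'` at `a₁` (both of nonzero discriminant) such that every `5`-torsion point of `W(ℚ̄)`
lifts to a `5`-torsion point of `𝕎(ℚ̄(t))` regular at `a₀`, gives `FiveCongruent W W'`. -/
theorem fiveCongruent_of_family_rat (W W' : WeierstrassCurve ℤ) (hΔ : W.Δ ≠ 0) (hΔ' : W'.Δ ≠ 0)
    (𝕎 : WeierstrassCurve ℚ[X]) (a₀ a₁ : ℚ)
    (hW : 𝕎.map (Polynomial.evalRingHom a₀) = W.map (Int.castRingHom ℚ))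
    (hW' : 𝕎.map (Polynomial.evalRingHom a₁) = W'.map (Int.castRingHom ℚ))
    (hlift : @HasTorsionLifts Qb _ _ (Classical.decEq _) (famQb 𝕎) (algebraMap ℚ Qb a₀) 5) :
    Fermat.Agent.S52.FiveCongruent W W' := by
  refine fiveCongruent_of_family W W' (famQb 𝕎) (algebraMap ℚ Qb a₀) (algebraMap ℚ Qb a₁)
    (fun σ => ⟨σ.commutes a₀, σ.commutes a₁, famQb_fixed 𝕎 σ⟩)
    (fibre_famQb 𝕎 a₀ _ hW) (fibre_famQb 𝕎 a₁ _ hW')
    (eval_Δ_famQb 𝕎 a₀ W hW hΔ) (eval_Δ_famQb 𝕎 a₁ W' hW' hΔ') hlift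

end FinalRat

end Fermat.Agent.S52.H170
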